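/-
S59 library / Curve / Away  (helper6)  — Project I, block (G1), the curve side away from `p`.

For a semistable `W : WeierstrassCurve ℤ` with `Δ ≠ 0` and an odd prime `p`, the `p`-adic Tate module
`tateRep W hΔ p := S58lib.Tate.tateFam W hΔ p : GaloisRepAdic ℤ_[p]` has
* `tateRep_charpoly_frob` : `charpoly Frob_ℓ = X² − a_ℓ(W) X + ℓ` at every good `ℓ ≠ p`;
* `tateRep_trace_frob`, `tateRep_det_frob`;
* `tateRep_detIsCyclotomic` : the prelude's `DetIsCyclotomic p`;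
* `tateRep_isUnramifiedAt` : unramified at every good `q ≠ p`;
* `tateRep_isUnipotentOnInertiaAt` : unipotent inertia at every `q ≠ p`;
* `tateRep_residual_isAbsolutelyIrreducible`.
Everything is a repackaging of `S58lib` (blocks `Tate`, `Tr`, `Cnt`, `Cmp`).
-/
import Fermat.Agent.S58lib.Assemble
import Fermat.Agent.S58lib.Cnt.FrobCore
import Fermat.Agent.S43lib.B3.HeckeType

set_option autoImplicit false
set_option linter.style.haveILetI false
set_option linter.unusedSectionVars false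

noncomputable section

namespace Fermat.Agent.S59lib.Curve

open WeierstrassCurve WeierstrassCurve.Affine.Point Polynomial IsLocalRing
open scoped WeierstrassCurve.Affine
open Fermat.Agent.S58lib Fermat.Agent.S58lib.Tate Fermat.Agent.S29lib.S30

local notation "Qb" => AlgebraicClosure ℚ
local notation "GQ" => (AlgebraicClosure ℚ ≃ₐ[ℚ] AlgebraicClosure ℚ)

variable (W : WeierstrassCurve ℤ) (hΔ : W.Δ ≠ 0) (p : ℕ) [hpf : Fact p.Prime]

/-- the `p`-adic Tate module of `W` -/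
abbrev tateRep : GaloisRepAdic ℤ_[p] := tateFam W hΔ p

/-- the Frobenius characteristic polynomials of the Tate modules -/
theorem tateFrob : TateFrob W (tateFam W hΔ) :=
  tateFrob_of_frobCore Fermat.Agent.S58lib.Cnt.frobCore W hΔ

/-- `charpoly Frob_ℓ = X² − a_ℓ(W) X + ℓ` at a good prime `ℓ ≠ p` -/
theorem tateRep_charpoly_frob (ℓ : ℕ) (hℓ : ℓ.Prime) (hℓp : ℓ ≠ p) (hgood : ¬ (ℓ : ℤ) ∣ W.Δ)
    (A : ValuationSubring Qb) (hA : A.LiesOverPrime ℓ) (σ : GQ) (hσ : A.IsFrobeniusAt σ ℓ) :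
    LinearMap.charpoly ((tateRep W hΔ p).ρ σ) =
      X ^ 2 - C (((W.apOfModel ℓ : ℤ) : ℤ_[p])) * X + C ((ℓ : ℕ) : ℤ_[p]) :=
  tateFrob W hΔ p ℓ hℓ hℓp hgood A hA σ hσ

/-- the trace of Frobenius at a good prime `ℓ ≠ p` -/
theorem tateRep_trace_frob (ℓ : ℕ) (hℓ : ℓ.Prime) (hℓp : ℓ ≠ p) (hgood : ¬ (ℓ : ℤ) ∣ W.Δ)
    (A : ValuationSubring Qb) (hA : A.LiesOverPrime ℓ) (σ : GQ) (hσ : A.IsFrobeniusAt σ ℓ) :
    (tateRep W hΔ p).trace σ = ((W.apOfModel ℓ : ℤ) : ℤ_[p]) := by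
  have h1 := tateRep_charpoly_frob W hΔ p ℓ hℓ hℓp hgood A hA σ hσ
  have h2 := Fermat.Agent.S34lib.charpoly_eq_of_finrank_two (tateRep W hΔ p).finrank_eq
    ((tateRep W hΔ p).ρ σ)
  rw [h1] at h2
  have h3 := congrArg (fun f : ℤ_[p][X] => f.coeff 1) h2
  simp only [coeff_add, coeff_sub, coeff_X_pow, coeff_C_mul, coeff_X_one, coeff_C] at h3
  norm_num at h3
  exact h3.symm

/-- the prelude's `DetIsCyclotomic` -/
theorem tateRep_detIsCyclotomic : (tateRep W hΔ p).DetIsCyclotomic p := by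
  have hpT : (p : ℤ_[p]) ∈ maximalIdeal ℤ_[p] := natCast_mem_maximalIdeal_padicInt p
  refine ⟨hpT, fun n σ a ha => ?_⟩
  rw [Fermat.Agent.S58lib.Tr.tateFam_det_eq_chiAdic W hΔ (tateFrob W hΔ) p σ]
  exact Fermat.Agent.S43lib.B3.chiAdic_sub_natCast_mem_span p (maximalIdeal ℤ_[p]) hpT σ n a ha

/-- unramified at every good prime `q ≠ p` -/
theorem tateRep_isUnramifiedAt (q : ℕ) (hq : q.Prime) (hqp : q ≠ p) (hgood : ¬ (q : ℤ) ∣ W.Δ) :
    (tateRep W hΔ p).IsUnramifiedAt q := by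
  intro A hA σ hσ
  classical
  have hp : p.Prime := hpf.out
  have hn : ∀ k : ℕ, ¬ q ∣ p ^ k := Fermat.Agent.S58lib.Tr.not_dvd_pow_of_ne hq hp hqp
  haveI : Fact q.Prime := ⟨hq⟩
  haveI : CharP (IsLocalRing.ResidueField A) q := Red.charP_residueField hq hA
  letI : Algebra (ZMod q) (IsLocalRing.ResidueField A) := ZMod.algebra _ q
  refine tateFam_eq_one_of_fix W hΔ p σ ?_
  intro k P hP
  have hP0 : (p ^ k) • P = 0 := mem_tors.mp hP
  obtain ⟨Pb, hPb⟩ := Red.exists_redPt_int W hq hgood hA (hn k) hP0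
  exact Red.smul_eq_self_of_redPt (Red.redCurve_int W A)
    (Fermat.Agent.S05lib.val_natCast_eq_one_of_not_dvd hq hA (hn k)) hPb hP0 hσ

/-- unipotent inertia at every prime `q ≠ p` -/
theorem tateRep_isUnipotentOnInertiaAt (hss : W.IsSemistableModel) (hp2 : p ≠ 2)
    (q : ℕ) (hq : q.Prime) (hqp : q ≠ p) :
    (tateRep W hΔ p).IsUnipotentOnInertiaAt q :=
  Fermat.Agent.S58lib.Tr.tateUnip_of_multFixed W hΔ hss (multFixed W hΔ) (tateFrob W hΔ) p hp2 q hq
    hqp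

/-- residual absolute irreducibility -/
theorem tateRep_residual_isAbsolutelyIrreducible (hp2 : p ≠ 2)
    (hirr : W.ModRepIsIrreducible p) :
    (tateRep W hΔ p).residual.IsAbsolutelyIrreducible := by
  have hA : AttachedToW W (tateRep W hΔ p) (insert p W.Δ.natAbs.primeFactors) := by
    intro ℓ hℓ hℓS A hA σ hσ
    have hℓp : ℓ ≠ p := fun h => hℓS (h ▸ Finset.mem_insert_self _ _)
    have hgood : ¬ (ℓ : ℤ) ∣ W.Δ := fun h =>
      hℓS (Finset.mem_insert_of_mem (Nat.mem_primeFactors.mpr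
        ⟨hℓ, Int.natCast_dvd.mp h, Int.natAbs_ne_zero.mpr hΔ⟩))
    exact tateRep_charpoly_frob W hΔ p ℓ hℓ hℓp hgood A hA σ hσ
  exact Fermat.Agent.S58lib.Cmp.cmpRes W hΔ (tateFrob W hΔ) p hp2 hirr ℤ_[p]
    (natCast_mem_maximalIdeal_padicInt p) (tateRep W hΔ p) _ hA

end Fermat.Agent.S59lib.Curve
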