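/-
S59 library / Curve / General  (helper6)  — Project I, block CURVE (`S59lib/LiftIface.CurveBlock`).

The `p`-adic Tate module of `W` over a GENERAL complete local coefficient ring `O ∋ p`,
`tateRepO W hΔ p hpO := S58lib.Tate.tateRep (WQ' W) p hpO _ : GaloisRepAdic O`, has the matrices of the
`ℤ_p`-Tate module pushed along the canonical `ι : ℤ_[p] → O` (`S58lib.Tate.tateMat_eq_map`).  Hence all the
properties of `Curve/Away` transfer:
* `tateRepO_charpoly_frob`, `tateRepO_detIsCyclotomic`, `tateRepO_isUnramifiedAt`,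
  `tateRepO_isUnipotentOnInertiaAt`;
* flat at a good `p`: C2, `S59lib.Flat.tateRep_isFlatAt` (helper2, helper9), stated for the same `tateRep`;
* strict ordinary at a bad (multiplicative) `p`: block STRICT-W (C3), the hypothesis `StrictWStmt` below.

`curveBlock_of_strictW : StrictWStmt → CurveBlock`.
-/
import Fermat.Agent.S59lib.Curve.Away
import Fermat.Agent.S59lib.LiftIface
import Fermat.Agent.S59lib.Flat.Top
import Fermat.Agent.S58lib.Tate.Charpoly

set_option autoImplicit false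
set_option linter.style.haveILetI false
set_option linter.unusedSectionVars false

noncomputable section

namespace Fermat.Agent.S59lib.Curve

open WeierstrassCurve WeierstrassCurve.Affine.Point Polynomial IsLocalRing
open scoped WeierstrassCurve.Affine
open Fermat.Agent.S58lib Fermat.Agent.S58lib.Tate Fermat.Agent.S29lib.S30

local notation "Qb" => AlgebraicClosure ℚ
local notation "GQ" => (AlgebraicClosure ℚ ≃ₐ[ℚ] AlgebraicClosure ℚ)

variable (W : WeierstrassCurve ℤ) (hΔ : W.Δ ≠ 0) (p : ℕ) [hpf : Fact p.Prime]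
  {O : Type} [CommRing O] [IsLocalRing O] [IsAdicComplete (maximalIdeal O) O]
  (hpO : (p : O) ∈ maximalIdeal O)

/-- the `p`-adic Tate module of `W` with coefficients in `O` -/
abbrev tateRepO : GaloisRepAdic O := Tate.tateRep (WQ' W) p hpO (WQ'_Δ_ne_zero hΔ)

/-- the canonical map `ℤ_[p] → O` -/
abbrev iotaO : ℤ_[p] →+* O := padicToRing p (maximalIdeal O) hpO

/-- the characteristic polynomials over `O` are the images of those over `ℤ_[p]` -/
theorem tateRepO_charpoly (σ : GQ) :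
    LinearMap.charpoly ((tateRepO W hΔ p hpO).ρ σ) =
      (LinearMap.charpoly ((tateRep W hΔ p).ρ σ)).map (iotaO p hpO) := by
  rw [Tate.tateRep_charpoly, Tate.tateMat_charpoly]
  show _ = (LinearMap.charpoly ((Tate.tateRep (WQ' W) p (natCast_mem_maximalIdeal_padicInt p)
    (WQ'_Δ_ne_zero hΔ)).ρ σ)).map _
  rw [Tate.tateRep_charpoly]
  rfl

/-- the determinants over `O` are the images of those over `ℤ_[p]` -/
theorem tateRepO_det (σ : GQ) :
    LinearMap.det ((tateRepO W hΔ p hpO).ρ σ) =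
      iotaO p hpO (LinearMap.det ((tateRep W hΔ p).ρ σ)) := by
  rw [Tate.tateRep_det, Tate.tateMat_det]
  show _ = iotaO p hpO (LinearMap.det ((Tate.tateRep (WQ' W) p
    (natCast_mem_maximalIdeal_padicInt p) (WQ'_Δ_ne_zero hΔ)).ρ σ))
  rw [Tate.tateRep_det]
  rfl

/-- `charpoly Frob_ℓ = X² − a_ℓ(W) X + ℓ` at a good prime `ℓ ≠ p` -/
theorem tateRepO_charpoly_frob (ℓ : ℕ) (hℓ : ℓ.Prime) (hℓp : ℓ ≠ p) (hgood : ¬ (ℓ : ℤ) ∣ W.Δ)
    (A : ValuationSubring Qb) (hA : A.LiesOverPrime ℓ) (σ : GQ) (hσ : A.IsFrobeniusAt σ ℓ) :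
    LinearMap.charpoly ((tateRepO W hΔ p hpO).ρ σ) =
      X ^ 2 - C (((W.apOfModel ℓ : ℤ) : O)) * X + C ((ℓ : ℕ) : O) := by
  rw [tateRepO_charpoly, tateRep_charpoly_frob W hΔ p ℓ hℓ hℓp hgood A hA σ hσ]
  simp [Polynomial.map_sub, Polynomial.map_add, Polynomial.map_mul, Polynomial.map_pow]

/-- the prelude's `DetIsCyclotomic` -/
theorem tateRepO_detIsCyclotomic : (tateRepO W hΔ p hpO).DetIsCyclotomic p := by
  refine ⟨hpO, fun n σ a ha => ?_⟩
  have h := (tateRep_detIsCyclotomic W hΔ p).2 n σ a ha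
  rw [tateRepO_det]
  obtain ⟨t, ht⟩ := Ideal.mem_span_singleton'.1 h
  refine Ideal.mem_span_singleton'.2 ⟨iotaO p hpO t, ?_⟩
  have := congrArg (iotaO p hpO) ht
  rw [map_mul, map_sub, map_natCast, map_natCast] at this
  exact this

/-- unramified at every good prime `q ≠ p` -/
theorem tateRepO_isUnramifiedAt (q : ℕ) (hq : q.Prime) (hqp : q ≠ p) (hgood : ¬ (q : ℤ) ∣ W.Δ) :
    (tateRepO W hΔ p hpO).IsUnramifiedAt q := by
  intro A hA σ hσ
  have h := tateRep_isUnramifiedAt W hΔ p q hq hqp hgood A hA σ hσ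
  -- the matrix over `ℤ_[p]` is `1`
  have h1 : tateMatZp (WQ' W) p (WQ'_Δ_ne_zero hΔ) σ = 1 := by
    have h2 : Matrix.toLin' (tateMatZp (WQ' W) p (WQ'_Δ_ne_zero hΔ) σ) = 1 := h
    have h3 := congrArg LinearMap.toMatrix' h2
    rw [LinearMap.toMatrix'_toLin'] at h3
    rw [h3]
    exact LinearMap.toMatrix'_one
  rw [Tate.tateRep_ρ, Tate.tateMat_eq_map, h1,
    Matrix.map_one _ (_root_.map_zero _) (_root_.map_one _), Matrix.toLin'_one]
  rfl

/-- unipotent inertia at every prime `q ≠ p` -/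
theorem tateRepO_isUnipotentOnInertiaAt (hss : W.IsSemistableModel) (hp2 : p ≠ 2)
    (q : ℕ) (hq : q.Prime) (hqp : q ≠ p) :
    (tateRepO W hΔ p hpO).IsUnipotentOnInertiaAt q := by
  intro A hA σ hσ
  rw [tateRepO_charpoly, tateRep_isUnipotentOnInertiaAt W hΔ p hss hp2 q hq hqp A hA σ hσ]
  simp [Polynomial.map_pow, Polynomial.map_sub]

/-! ### the block -/

/-- **Block STRICT-W (C3)**: the Tate module of a semistable `W` with bad (multiplicative) reduction at `p` is
strict ordinary at `p`. -/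
def StrictWStmt : Prop :=
  ∀ (p : ℕ) [Fact p.Prime], (p = 3 ∨ p = 5) → ∀ (W : WeierstrassCurve ℤ) (hΔ : W.Δ ≠ 0),
    W.IsSemistableModel → ¬ W.IsGoodPrimeFor p →
    ∀ (O : Type) [CommRing O] [IsDomain O] [IsDiscreteValuationRing O]
      [IsAdicComplete (maximalIdeal O) O] [Finite (ResidueField O)] [CharZero O]
      (hpO : (p : O) ∈ maximalIdeal O), (tateRepO W hΔ p hpO).IsStrictOrdinaryAt p

/-- **`CurveBlock` from STRICT-W.** -/
theorem curveBlock_of_strictW (hS : StrictWStmt) : CurveBlock := by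
  intro p hp W hΔ hss _ O _ _ _ _ _ _ hpO
  have hpp : p.Prime := by rcases hp with rfl | rfl <;> norm_num
  have hp2 : p ≠ 2 := by rcases hp with rfl | rfl <;> norm_num
  haveI : Fact p.Prime := ⟨hpp⟩
  refine ⟨tateRepO W hΔ p hpO, ?_, ?_, ?_, ?_, ?_, ?_⟩
  · exact tateRepO_detIsCyclotomic W hΔ p hpO
  · intro hgood
    exact Fermat.Agent.S59lib.Flat.tateRep_isFlatAt W hΔ p hp2 hgood O hpO
  · intro hbad
    exact hS p hp W hΔ hss hbad O hpO
  · intro q hq hqp
    exact tateRepO_isUnipotentOnInertiaAt W hΔ p hpO hss hp2 q hq hqp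
  · intro q hq hqp hgood
    exact tateRepO_isUnramifiedAt W hΔ p hpO q hq hqp hgood
  · intro ℓ hℓ hℓp hgood A hA σ hσ
    exact tateRepO_charpoly_frob W hΔ p hpO ℓ hℓ hℓp hgood A hA σ hσ

end Fermat.Agent.S59lib.Curve

end
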